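import Fermat.Agent.IsogenyNF.FiniteFieldDet
import Fermat.Agent.WeilNF.Det

/-!
# The points of order prime to `q` and of `l`-power order under the `q`-power map

Over an algebraically closed field of characteristic `l` let `π` be the `q`-power map of a curve
fixed by it, `q = l ^ n`, and `t` its trace. If `l ∣ t` there is no point of order `l`; otherwise
`q = π (t - π)` with `π` bijective and `t - π` onto with `q` points in its kernel, so there are
`l ^ j` points killed by `l ^ j`. Where `π` is the scalar `c` on the `N²` points killed by `N`, the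
count of the kernels of `c' - π`, `c' ≡ c`, gives `t ≡ 2 c` and `q ≡ c²` modulo `N`.
-/

set_option autoImplicit false
set_option linter.unusedSectionVars false

noncomputable section

namespace FA.FiniteFieldGroup

open WeierstrassCurve FA.Frob FA.HasseBound FA.IsogenyNF

universe u

variable {k : Type u} [Field k] [IsAlgClosed k] [DecidableEq k] {l : ℕ} [Fact l.Prime] [CharP k l]
  {n : ℕ} (W : WeierstrassCurve k) [W.IsElliptic] [DecidableEq (FF W)]
  (hW : W.map (iterateFrobenius k l n) = W)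

theorem qEnd_injective : Function.Injective (qEnd W hW) :=
  mapHom_injective (iterateFrobenius k l n) hW

theorem qEnd_surjective : Function.Surjective (qEnd W hW) := by
  rintro (_ | ⟨x, y, h⟩)
  · exact ⟨0, rfl⟩
  have hpos : 0 < l ^ n := pow_pos (Fact.out : l.Prime).pos n
  obtain ⟨x', hx⟩ := IsAlgClosed.exists_pow_nat_eq x hpos
  obtain ⟨y', hy⟩ := IsAlgClosed.exists_pow_nat_eq y hpos
  have h' : W.toAffine.Nonsingular x' y' :=
    (W.toAffine.map_nonsingular (iterateFrobenius k l n).injective x' y').1 (by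
      show (W.map (iterateFrobenius k l n)).toAffine.Nonsingular _ _
      rw [hW, iterateFrobenius_def, iterateFrobenius_def, hx, hy]
      exact h)
  refine ⟨.some x' y' h', ?_⟩
  rw [qEnd, mapHom_some]
  simp only [iterateFrobenius_def, hx, hy]

/-- `q = π (t - π)`. -/
theorem natPow_smul_eq (hn : n ≠ 0) (P : W.toAffine.Point) :
    l ^ n • P = qEnd W hW (trQ W hW • P - qEnd W hW P) := by
  have h := qEnd_quadratic W hW hn P
  rw [← natCast_zsmul, Nat.cast_pow, map_sub, map_zsmul, ← sub_eq_zero, ← h]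
  abel

/-- **No point of order `l`** if `l ∣ t`. -/
theorem eq_zero_of_dvd (hn : n ≠ 0) (ht : (l : ℤ) ∣ trQ W hW) {P : W.toAffine.Point}
    (hP : l • P = 0) : P = 0 := by
  obtain ⟨s, hs⟩ := ht
  have hq : l ^ n • P = 0 := by
    obtain ⟨m, hm⟩ := Nat.exists_eq_succ_of_ne_zero hn
    rw [hm, pow_succ, mul_nsmul', hP, nsmul_zero]
  have hts : trQ W hW • P = 0 := by
    rw [hs, mul_comm, mul_zsmul, natCast_zsmul, hP, zsmul_zero]
  rw [natPow_smul_eq W hW hn, hts, zero_sub, map_neg, neg_eq_zero, ← map_zero (qEnd W hW)] at hq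
  refine qEnd_injective W hW ?_
  rw [map_zero]
  exact (qEnd_injective W hW hq).trans rfl

/-- The cofactor `t - π`. -/
def cof : W.toAffine.Point →+ W.toAffine.Point :=
  trQ W hW • AddMonoidHom.id _ - qEnd W hW

theorem cof_facts (hn : n ≠ 0) (ht : ¬ (l : ℤ) ∣ trQ W hW) :
    Nat.card (cof W hW).ker = l ^ n ∧ Function.Surjective (cof W hW) := by
  have hl : Prime (l : ℤ) := Nat.prime_iff_prime_int.1 (Fact.out : l.Prime)
  refine ⟨?_, (natCard_ker_sub_aux W (cast_ne_zero_of_not_dvd (k := k) ht)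
    (π := qEnd W hW) (F := gi W hW 1) (spec_qGen W hW (spec_gen W))
    (insep_qGen W hW hn (gi W hW 0).2) (by rw [hM_gi, pow_one]; exact pow_ne_zero _ hl.ne_zero)
    (by
      rw [hM_gi, pow_one]
      exact fun h => ht (hl.dvd_of_dvd_pow (h ▸ dvd_pow_self _ hn)))).2⟩
  have h := natCard_ker_sub_qEnd W hW hn ht
  rw [show trQ W hW ^ 2 - trQ W hW * trQ W hW + (l : ℤ) ^ n = (l : ℤ) ^ n by ring,
    ← Nat.cast_pow] at h
  exact_mod_cast h

theorem nsmul_surjective (hn : n ≠ 0) (ht : ¬ (l : ℤ) ∣ trQ W hW) :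
    Function.Surjective fun P : W.toAffine.Point => l • P := fun P => by
  obtain ⟨R, hR⟩ := qEnd_surjective W hW P
  obtain ⟨S, hS⟩ := (cof_facts W hW hn ht).2 R
  obtain ⟨m, hm⟩ := Nat.exists_eq_succ_of_ne_zero hn
  refine ⟨l ^ m • S, ?_⟩
  show l • l ^ m • S = P
  have e : cof W hW S = trQ W hW • S - qEnd W hW S := rfl
  rw [← mul_nsmul', ← pow_succ', ← Nat.succ_eq_add_one, ← hm, natPow_smul_eq W hW hn, ← e, hS, hR]

/-- **There are `l ^ j` points killed by `l ^ j`** if `l ∤ t`. -/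
theorem natCard_pow (hn : n ≠ 0) (ht : ¬ (l : ℤ) ∣ trQ W hW) (j : ℕ) :
    Nat.card (nsmulAddMonoidHom (α := W.toAffine.Point) (l ^ j)).ker = l ^ j := by
  set K : ℕ → AddSubgroup W.toAffine.Point := fun i => (nsmulAddMonoidHom (l ^ i)).ker
  have hmem : ∀ {i : ℕ} {P : W.toAffine.Point}, P ∈ K i ↔ l ^ i • P = 0 :=
    fun {i P} => by simp [K]
  have hstep : ∀ i, Nat.card (K (i + 1)) = Nat.card (K i) * Nat.card (K 1) := fun i => by
    let r : K (i + 1) →+ K i := ((nsmulAddMonoidHom l).comp (K (i + 1)).subtype).codRestrict _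
      fun P => by
        rw [hmem]
        show l ^ i • l • (P : W.toAffine.Point) = 0
        rw [← mul_nsmul', ← pow_succ]
        exact hmem.1 P.2
    have hr : Function.Surjective r := fun ⟨Q, hQ⟩ => by
      obtain ⟨P, hP⟩ := nsmul_surjective W hW hn ht Q
      refine ⟨⟨P, hmem.2 ?_⟩, Subtype.ext hP⟩
      rw [pow_succ, mul_nsmul', show l • P = Q from hP]
      exact hmem.1 hQ
    have hker : Nat.card r.ker = Nat.card (K 1) := by
      refine Nat.card_eq_of_bijective (fun P => ⟨P.1.1, hmem.2 ?_⟩)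
        ⟨fun a b e => Subtype.ext (Subtype.ext (congrArg Subtype.val e :)), fun ⟨P, hP⟩ => ?_⟩
      · rw [pow_one]
        exact congrArg Subtype.val P.2
      · have hP' := hmem.1 hP
        rw [pow_one] at hP'
        exact ⟨⟨⟨P, hmem.2 (by rw [pow_succ, mul_nsmul', hP', nsmul_zero])⟩, Subtype.ext hP'⟩, rfl⟩
    rw [AddSubgroup.card_eq_card_quotient_mul_card_addSubgroup r.ker,
      Nat.card_congr (QuotientAddGroup.quotientKerEquivOfSurjective r hr).toEquiv, hker]
  have hpow : ∀ i, Nat.card (K i) = Nat.card (K 1) ^ i := fun i => by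
    induction i with
    | zero =>
      rw [pow_zero, show K 0 = ⊥ from eq_bot_iff.2 fun P hP => by simpa [K] using hP]
      simp
    | succ i ih => rw [hstep, ih, pow_succ]
  have hq : Nat.card (K n) = l ^ n := by
    rw [show K n = (cof W hW).ker from AddSubgroup.ext fun P => ?_, (cof_facts W hW hn ht).1]
    rw [hmem, natPow_smul_eq W hW hn, map_eq_zero_iff _ (qEnd_injective W hW)]
    rfl
  have h1 : Nat.card (K 1) = l := Nat.pow_left_injective hn ((hpow n).symm.trans hq)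
  rw [show (nsmulAddMonoidHom (α := W.toAffine.Point) (l ^ j)).ker = K j from rfl, hpow, h1]

include hW in
/-- At most `m²` points are killed by `m`. -/
theorem natCard_killed_le (hn : n ≠ 0) {m : ℕ} (hm : 0 < m) :
    Finite {P : W.toAffine.Point // m • P = 0} ∧
      Nat.card {P : W.toAffine.Point // m • P = 0} ≤ m ^ 2 := by
  have hl := (Fact.out : l.Prime)
  obtain ⟨j, m', hlm, rfl⟩ := Nat.exists_eq_pow_mul_and_not_dvd hm.ne' l hl.one_lt.ne'
  have hmk : (m' : k) ≠ 0 := fun e => hlm ((CharP.cast_eq_zero_iff k l m').1 e)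
  have hm' : m' ≠ 0 := fun e => hlm (e ▸ dvd_zero l)
  have hA := FA.EC.natCard_nsmul_eq_zero W hmk
  have hB : ∃ s, s ≠ 0 ∧ s ≤ l ^ j ∧ Nat.card {P : W.toAffine.Point // l ^ j • P = 0} = s := by
    by_cases ht : (l : ℤ) ∣ trQ W hW
    · refine ⟨1, one_ne_zero, Nat.one_le_pow _ _ hl.pos, Nat.card_eq_one_iff_unique.2
        ⟨⟨fun P Q => Subtype.ext ?_⟩, ⟨⟨0, nsmul_zero _⟩⟩⟩⟩
      have hz : ∀ i (R : W.toAffine.Point), l ^ i • R = 0 → R = 0 := fun i => by
        induction i with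
        | zero => exact fun R hR => by rwa [pow_zero, one_nsmul] at hR
        | succ i ih =>
          exact fun R hR => eq_zero_of_dvd W hW hn ht (ih _ (by rwa [← mul_nsmul', ← pow_succ]))
      rw [hz j _ P.2, hz j _ Q.2]
    · exact ⟨l ^ j, pow_ne_zero _ hl.ne_zero, le_rfl, natCard_pow W hW hn ht j⟩
  obtain ⟨s, hs0, hs, hB⟩ := hB
  have := Nat.finite_of_card_ne_zero (hA.symm ▸ pow_ne_zero 2 hm' :
    Nat.card {P : W.toAffine.Point // m' • P = 0} ≠ 0)
  have := Nat.finite_of_card_ne_zero (hB.symm ▸ hs0 :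
    Nat.card {P : W.toAffine.Point // l ^ j • P = 0} ≠ 0)
  let f : {P : W.toAffine.Point // (l ^ j * m') • P = 0} →
      {P : W.toAffine.Point // m' • P = 0} × {P : W.toAffine.Point // l ^ j • P = 0} := fun P =>
    (⟨l ^ j • P.1, by rw [← mul_nsmul', mul_comm, P.2]⟩, ⟨m' • P.1, by rw [← mul_nsmul', P.2]⟩)
  have hf : Function.Injective f := fun P Q e => by
    have e₁ : l ^ j • P.1 = l ^ j • Q.1 := congrArg Subtype.val (congrArg Prod.fst e)
    have e₂ : m' • P.1 = m' • Q.1 := congrArg Subtype.val (congrArg Prod.snd e)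
    refine Subtype.ext (sub_eq_zero.1 (AddMonoid.addOrderOf_eq_one_iff.1
      (Nat.eq_one_of_dvd_coprimes (Nat.Coprime.pow_left j (hl.coprime_iff_not_dvd.2 hlm))
        (addOrderOf_dvd_of_nsmul_eq_zero (by rw [nsmul_sub, e₁, sub_self]))
        (addOrderOf_dvd_of_nsmul_eq_zero (by rw [nsmul_sub, e₂, sub_self])))))
  refine ⟨Finite.of_injective f hf, (Nat.card_le_card_of_injective f hf).trans ?_⟩
  rw [Nat.card_prod, hA, hB, mul_pow, mul_comm]
  exact Nat.mul_le_mul_right _ (hs.trans (Nat.le_self_pow two_ne_zero _))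

/-- **A scalar on `E[N]`** determines `t` and `q` modulo `N`. -/
theorem congr_of_scalar (hn : n ≠ 0) {N : ℕ} (hN : (N : k) ≠ 0) {c : ℤ}
    (h : ∀ P : W.toAffine.Point, N • P = 0 → qEnd W hW P = c • P) :
    (N : ℤ) ∣ trQ W hW - 2 * c ∧ (N : ℤ) ∣ (l : ℤ) ^ n - c ^ 2 := by
  have hN0 : N ≠ 0 := fun e => hN (by rw [e, Nat.cast_zero])
  have hlN : ¬ (l : ℤ) ∣ N := fun e =>
    hN ((CharP.cast_eq_zero_iff k l N).2 (Int.natCast_dvd_natCast.1 e))
  have hl : Prime (l : ℤ) := Nat.prime_iff_prime_int.1 (Fact.out : l.Prime)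
  have hcount : ∀ c' : ℤ, (N : ℤ) ∣ c' - c → ¬ (l : ℤ) ∣ c' →
      (N : ℤ) ^ 2 ∣ c' ^ 2 - trQ W hW * c' + (l : ℤ) ^ n := fun c' hc hl' => by
    have hle : (nsmulAddMonoidHom (α := W.toAffine.Point) N).ker ≤
        (c' • AddMonoidHom.id _ - qEnd W hW).ker := fun P (hP : N • P = 0) => by
      show c' • P - qEnd W hW P = 0
      obtain ⟨e, he⟩ := hc
      rw [h P hP, ← sub_smul, he, mul_comm, mul_smul, natCast_zsmul, hP, smul_zero]
    have hd := AddSubgroup.card_dvd_of_le hle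
    rw [← Int.natCast_dvd_natCast, natCard_ker_sub_qEnd W hW hn hl',
      show Nat.card (nsmulAddMonoidHom (α := W.toAffine.Point) N).ker = N ^ 2 from
        FA.EC.natCard_nsmul_eq_zero W hN, Nat.cast_pow] at hd
    exact hd
  have h2 := FA.WeilNF.dvd_trace_sub hl hlN (Nat.cast_ne_zero.2 hN0) (q := (l : ℤ) ^ n) hcount
  refine ⟨by rw [← dvd_neg, neg_sub]; exact h2, ?_⟩
  obtain ⟨c', hc', hlc⟩ : ∃ c' : ℤ, (N : ℤ) ∣ c' - c ∧ ¬ (l : ℤ) ∣ c' := by
    by_cases hc : (l : ℤ) ∣ c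
    · exact ⟨c + N, by simp, fun hd => hlN ((dvd_add_right hc).1 hd)⟩
    · exact ⟨c, by simp, hc⟩
  have h3 : (N : ℤ) ∣ c' ^ 2 - trQ W hW * c' + (l : ℤ) ^ n :=
    (dvd_pow_self _ two_ne_zero).trans (hcount c' hc' hlc)
  rw [show (l : ℤ) ^ n - c ^ 2 = (c' ^ 2 - trQ W hW * c' + (l : ℤ) ^ n) -
    (c' - c) * (c' + c) + c' * (trQ W hW - 2 * c) + 2 * c * (c' - c) by ring]
  exact dvd_add (dvd_add (dvd_sub h3 (hc'.mul_right _))
    ((by rw [← dvd_neg, neg_sub]; exact h2 : (N : ℤ) ∣ trQ W hW - 2 * c).mul_left c'))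
    (hc'.mul_left _)

end FA.FiniteFieldGroup

end
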