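import Fermat.Agent.FiniteFieldGroup.Closure
import Fermat.Agent.ReducedGroups.Structure

/-!
# The groups of points over a finite field

The points over `F` are the fixed points of the `q`-power map over the closure, so the trace of that
map is `q + 1 - #E(F)`; a square `(ℤ/d)²` among them is all of `E[d]`, on which the map is one.
-/

set_option autoImplicit false
set_option linter.unusedSectionVars false

noncomputable section

namespace FA.FiniteFieldGroup

open WeierstrassCurve FA.Frob FA.HasseBound FA.IsogenyNF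
open scoped Classical

universe u

variable {F : Type u} [Field F] [Fintype F] (E : WeierstrassCurve F) [E.IsElliptic]

/-- The points over the algebraic closure. -/
abbrev closureCurve : WeierstrassCurve (AlgebraicClosure F) :=
  E.map (algebraMap F (AlgebraicClosure F))

/-- The trace `q + 1 - #E(F)`. -/
def trace : ℤ := (Fintype.card F : ℤ) + 1 - Nat.card E.toAffine.Point

/-- A point over `F` as a point over the closure. -/
def up : E.toAffine.Point →+ (closureCurve E).toAffine.Point :=
  mapHom (algebraMap F (AlgebraicClosure F)) rfl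

theorem up_injective : Function.Injective (up E) :=
  mapHom_injective _ rfl

/-- The data of the `q`-power map. -/
theorem exists_data (l : ℕ) [CharP F l] :
    ∃ (_ : Fact l.Prime) (_ : CharP (AlgebraicClosure F) l) (n : ℕ), n ≠ 0 ∧
      Fintype.card F = l ^ n ∧
      ∃ hW : (closureCurve E).map (iterateFrobenius (AlgebraicClosure F) l n) = closureCurve E,
        trQ (closureCurve E) hW = trace E ∧
        (∀ P, qEnd (closureCurve E) hW (up E P) = up E P) ∧
        ∀ x y h, ∃ h', qEnd (closureCurve E) hW (.some x y h) =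
          .some (x ^ Fintype.card F) (y ^ Fintype.card F) h' := by
  obtain ⟨n, hl, hcard⟩ := FiniteField.card F l
  have : Fact l.Prime := ⟨hl⟩
  have : CharP (AlgebraicClosure F) l :=
    charP_of_injective_algebraMap (algebraMap F (AlgebraicClosure F)).injective l
  have hfix : ∀ a : F, iterateFrobenius (AlgebraicClosure F) l n (algebraMap F _ a) =
      algebraMap F _ a := fun a => by
    rw [iterateFrobenius_def, ← map_pow, ← hcard, FiniteField.pow_card]
  have hW : (closureCurve E).map (iterateFrobenius (AlgebraicClosure F) l n) = closureCurve E := by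
    rw [closureCurve, WeierstrassCurve.map_map]
    congr 1
    exact RingHom.ext hfix
  have hπ : ∀ x y h, ∃ h', qEnd (closureCurve E) hW (.some x y h) =
      .some (x ^ Fintype.card F) (y ^ Fintype.card F) h' := fun x y h => by
    have h' := nonsingular_mapHom _ hW h
    simp only [iterateFrobenius_def, ← hcard] at h'
    exact ⟨h', by simp [qEnd, mapHom_some, iterateFrobenius_def, ← hcard]⟩
  refine ⟨inferInstance, inferInstance, n, n.ne_zero, hcard, hW, ?_, ?_, hπ⟩
  · have hc := natCard_ker_sub_qEnd (closureCurve E) hW n.ne_zero (c := 1) fun hd =>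
      hl.ne_one (Nat.dvd_one.1 (Int.natCast_dvd_natCast.1 (by exact_mod_cast hd)))
    rw [← natCard_point_eq_ker E _ rfl (qEnd (closureCurve E) hW) hπ] at hc
    rw [trace, hc, hcard, Nat.cast_pow]
    ring
  · rintro (_ | ⟨x, y, h⟩)
    · exact (congrArg _ (map_zero (up E))).trans ((map_zero _).trans (map_zero (up E)).symm)
    obtain ⟨h', e⟩ := hπ _ _ (nonsingular_mapHom (algebraMap F (AlgebraicClosure F))
      (rfl : E.map (algebraMap F (AlgebraicClosure F)) = closureCurve E) h)
    rw [up, mapHom_some, e]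
    simp only [← map_pow, FiniteField.pow_card]

/-- **At most `m²` points over `F` are killed by `m`, at most `m` if `m` is the characteristic.** -/
theorem natCard_killed (l : ℕ) [CharP F l] {m : ℕ} (hm : 0 < m) :
    Nat.card {P : E.toAffine.Point // m • P = 0} ≤ m ^ 2 ∧
      Nat.card {P : E.toAffine.Point // l • P = 0} ≤ l := by
  obtain ⟨hl, hk, n, hn, -, hW, -, -, -⟩ := exists_data E l
  obtain ⟨hfin, hle⟩ := natCard_killed_le (closureCurve E) hW hn hm
  refine ⟨le_trans (Nat.card_le_card_of_injective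
    (fun P => (⟨up E P.1, by rw [← map_nsmul, P.2, map_zero]⟩ :
      {P : (closureCurve E).toAffine.Point // m • P = 0}))
    fun P Q h => Subtype.ext (up_injective E (congrArg Subtype.val h :))) hle, ?_⟩
  by_cases ht : (l : ℤ) ∣ trQ (closureCurve E) hW
  · refine le_trans (le_of_eq (Nat.card_eq_one_iff_unique.2
      ⟨⟨fun P Q => Subtype.ext (up_injective E ?_)⟩, ⟨⟨0, nsmul_zero _⟩⟩⟩)) hl.out.one_lt.le
    rw [eq_zero_of_dvd _ hW hn ht (P := up E P.1) (by rw [← map_nsmul, P.2, map_zero]),
      eq_zero_of_dvd _ hW hn ht (P := up E Q.1) (by rw [← map_nsmul, Q.2, map_zero])]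
  · have h1 := natCard_pow (closureCurve E) hW hn ht 1
    rw [pow_one] at h1
    have := Nat.finite_of_card_ne_zero (h1.symm ▸ hl.out.ne_zero :
      Nat.card (nsmulAddMonoidHom (α := (closureCurve E).toAffine.Point) l).ker ≠ 0)
    refine le_trans (Nat.card_le_card_of_injective
      (fun P => (⟨up E P.1, by
        show l • up E P.1 = 0
        rw [← map_nsmul, P.2, map_zero]⟩ :
        (nsmulAddMonoidHom (α := (closureCurve E).toAffine.Point) l).ker))
      fun P Q h => Subtype.ext (up_injective E (congrArg Subtype.val h :))) h1.le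

/-- **Full level over `F`**: `N` is prime to the characteristic, `N ∣ q - 1` and `N ∣ a - 2`. -/
theorem full_level (l : ℕ) [CharP F l] {N : ℕ} [NeZero N]
    (φ : ZMod N × ZMod N →+ E.toAffine.Point) (hφ : Function.Injective φ) :
    ¬ l ∣ N ∧ N ∣ Fintype.card F - 1 ∧ (N : ℤ) ∣ trace E - 2 := by
  have hlN : ¬ l ∣ N := fun hd => by
    obtain ⟨hl, -, -⟩ := exists_data E l
    obtain ⟨e, he⟩ := hd
    have he0 : e ≠ 0 := fun h => NeZero.ne N (by rw [he, h, mul_zero])
    let g : ZMod l × ZMod l → {P : E.toAffine.Point // l • P = 0} := fun z =>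
      ⟨φ ((((z.1.val * e : ℕ)) : ZMod N), (((z.2.val * e : ℕ)) : ZMod N)), by
        rw [← map_nsmul, show l • ((((z.1.val * e : ℕ)) : ZMod N), (((z.2.val * e : ℕ)) : ZMod N)) =
          0 from Prod.ext ?_ ?_, map_zero] <;>
        · show l • _ = (0 : ZMod N)
          rw [nsmul_eq_mul, ← Nat.cast_mul, ZMod.natCast_eq_zero_iff, he]
          exact mul_dvd_mul_left l (dvd_mul_left e _)⟩
    have : NeZero l := ⟨hl.out.ne_zero⟩
    have hinj : ∀ a b : ZMod l, ((a.val * e : ℕ) : ZMod N) = ((b.val * e : ℕ) : ZMod N) → a = b :=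
      fun a b h => by
        rw [ZMod.natCast_eq_natCast_iff, he] at h
        refine ZMod.val_injective l ((Nat.ModEq.mul_right_cancel' he0 h).eq_of_lt_of_lt
          (ZMod.val_lt a) (ZMod.val_lt b))
    have hg : Function.Injective g := fun z w h => by
      have h' := hφ (congrArg Subtype.val h :)
      exact Prod.ext (hinj _ _ (congrArg Prod.fst h')) (hinj _ _ (congrArg Prod.snd h'))
    have hle := (Nat.card_le_card_of_injective g hg).trans (natCard_killed E l one_pos).2
    rw [Nat.card_prod, Nat.card_zmod] at hle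
    exact absurd hle (not_le.2 (lt_mul_self hl.out.one_lt))
  obtain ⟨hl, hk, n, hn, hcard, hW, htr, hup, -⟩ := exists_data E l
  have hNk : (N : AlgebraicClosure F) ≠ 0 := fun e => hlN ((CharP.cast_eq_zero_iff _ l N).1 e)
  have hc : Nat.card {P : (closureCurve E).toAffine.Point // N • P = 0} = N ^ 2 :=
    FA.EC.natCard_nsmul_eq_zero _ hNk
  have : Finite {P : (closureCurve E).toAffine.Point // N • P = 0} :=
    Nat.finite_of_card_ne_zero (by rw [hc]; exact pow_ne_zero 2 (NeZero.ne N))
  let g : ZMod N × ZMod N → {P : (closureCurve E).toAffine.Point // N • P = 0} := fun z =>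
    ⟨up E (φ z), by
      rw [← map_nsmul, ← map_nsmul, show N • z = 0 from Prod.ext (by simp) (by simp), map_zero,
        map_zero]⟩
  have hg : Function.Bijective g := (Nat.bijective_iff_injective_and_card g).2
    ⟨fun z w h => hφ (up_injective E (congrArg Subtype.val h :)),
      by rw [hc, Nat.card_prod, Nat.card_zmod, sq]⟩
  obtain ⟨h1, h2⟩ := congr_of_scalar (closureCurve E) hW hn hNk (c := 1) fun P hP => by
    obtain ⟨z, hz⟩ := hg.2 ⟨P, hP⟩
    rw [one_zsmul, show P = up E (φ z) from (congrArg Subtype.val hz).symm, hup]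
  refine ⟨hlN, ?_, by rwa [htr, mul_one] at h1⟩
  rw [one_pow, ← Nat.cast_pow, ← hcard, ← Nat.cast_one, ← Nat.cast_sub Fintype.card_pos] at h2
  exact Int.natCast_dvd_natCast.1 h2

/-- **The structure of `E(F)`.** -/
theorem exists_structure (l : ℕ) [CharP F l] :
    ∃ d e : ℕ, 0 < d ∧ d ∣ e ∧ d * e = Nat.card E.toAffine.Point ∧
      e = AddMonoid.exponent E.toAffine.Point ∧ ¬ l ∣ d ∧ d ∣ Fintype.card F - 1 ∧
      (d : ℤ) ∣ trace E - 2 ∧ Nonempty (E.toAffine.Point ≃+ ZMod d × ZMod e) := by
  obtain ⟨d, hde, hcard, ⟨f⟩⟩ := FA.ReducedGroups.exists_equiv (G := E.toAffine.Point)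
    fun m hm => (natCard_killed E l hm).1
  set e := AddMonoid.exponent E.toAffine.Point
  have hd : 0 < d := Nat.pos_of_ne_zero fun h => by
    rw [h, zero_mul] at hcard
    exact absurd hcard.symm Nat.card_pos.ne'
  have : NeZero d := ⟨hd.ne'⟩
  obtain ⟨c, hc⟩ := hde
  have hc0 : c ≠ 0 := fun h => by
    rw [hc, h, mul_zero, mul_zero] at hcard
    exact absurd hcard.symm Nat.card_pos.ne'
  let ι : ZMod d →+ ZMod e := ZMod.lift d ⟨(AddMonoidHom.mulLeft (c : ZMod e)).comp
    (Int.castAddHom (ZMod e)), by
      simp only [AddMonoidHom.comp_apply, Int.coe_castAddHom, Int.cast_natCast,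
        AddMonoidHom.coe_mulLeft]
      rw [← Nat.cast_mul, mul_comm, ← hc, ZMod.natCast_self]⟩
  have hι : Function.Injective ι := (ZMod.lift_injective _).2 fun s hs => by
    simp only [AddMonoidHom.comp_apply, Int.coe_castAddHom, AddMonoidHom.coe_mulLeft] at hs
    rw [← Int.cast_natCast, ← Int.cast_mul, ZMod.intCast_zmod_eq_zero_iff_dvd, hc,
      Nat.cast_mul, mul_comm (c : ℤ) s] at hs
    rw [ZMod.intCast_zmod_eq_zero_iff_dvd]
    exact Int.dvd_of_mul_dvd_mul_right (Nat.cast_ne_zero.2 hc0) hs
  obtain ⟨h0, h1, h2⟩ := full_level E l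
    (f.symm.toAddMonoidHom.comp ((AddMonoidHom.id _).prodMap ι))
    (f.symm.injective.comp (Function.injective_id.prodMap hι))
  exact ⟨d, e, hd, ⟨c, hc⟩, hcard, rfl, h0, h1, h2, ⟨f⟩⟩

end FA.FiniteFieldGroup

end
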